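import Mathlib
import Fermat.Agent.LT.T7.H671.ConeCount
import Fermat.Agent.LT.T7.H671.ConeOrbit

/-!
# Row LT, tower T7, node T7.14, leaf T7.14.3j `TailC`: lattice part (helper71), OFF-MAIN

Mathlib + `H671/ConeCount`, `H671/ConeOrbit` only.  Nothing assumed.

* `finite_coneSet71`   : a discrete subgroup has finitely many points in the cone with gauge `≤ B`;
* `exists_coneBound71` : for a `ℤ`-lattice `L` of `(K_∞)²` there is `C ≥ 0` with
  `#{p ∈ L ∩ cone : gauge p ≤ B} ≤ C B²` for EVERY real `B`;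
* `ncard_mulK_le71`    : if `L` is stable under the units, then for `l ∈ Kˣ`
  `#{p ∈ l L ∩ cone : gauge p ≤ B} ≤ #{p ∈ L ∩ cone : gauge p ≤ B / |N l|}`.
-/

set_option autoImplicit false
set_option linter.unusedSectionVars false

open NumberField NumberField.mixedEmbedding NumberField.InfinitePlace NumberField.Units
  MeasureTheory Filter Topology Bornology Module

noncomputable section

namespace Fermat.Agent.LT.T7.H71

open Fermat.Agent.LT.T7.H671

variable {K : Type} [Field K] [NumberField K]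

/-- The points of the set `L` in the cone with gauge `≤ B`. -/
def coneSet71 (L : Set (Pair671 K)) (B : ℝ) : Set (Pair671 K) :=
  {p | p ∈ pairCone671 K ∧ pairGauge671 p ≤ B ∧ p ∈ L}

theorem coneSet71_mono (L : Set (Pair671 K)) {B B' : ℝ} (h : B ≤ B') :
    coneSet71 L B ⊆ coneSet71 L B' :=
  fun _ hp => ⟨hp.1, hp.2.1.trans h, hp.2.2⟩

theorem pairGauge671_pos_of_mem_cone71 {p : Pair671 K} (hp : p ∈ pairCone671 K) :
    0 < pairGauge671 p :=
  lt_of_le_of_ne (pairGauge671_nonneg p) (pairGauge671_ne_zero_of_mem_cone hp).symm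

theorem coneSet71_eq_empty (L : Set (Pair671 K)) {B : ℝ} (hB : B ≤ 0) : coneSet71 L B = ∅ := by
  refine Set.eq_empty_of_forall_notMem fun p hp => ?_
  exact absurd (lt_of_lt_of_le (pairGauge671_pos_of_mem_cone71 hp.1) hp.2.1) (not_lt.mpr hB)

/-- The part of the cone with gauge `≤ B` is bounded. -/
theorem isBounded_coneGauge71 (B : ℝ) :
    IsBounded {p : Pair671 K | p ∈ pairCone671 K ∧ pairGauge671 p ≤ B} := by
  classical
  rcases le_or_gt B 0 with hB | hB
  · have : {p : Pair671 K | p ∈ pairCone671 K ∧ pairGauge671 p ≤ B} = ∅ := by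
      refine Set.eq_empty_of_forall_notMem fun p hp => ?_
      exact absurd (lt_of_lt_of_le (pairGauge671_pos_of_mem_cone71 hp.1) hp.2) (not_lt.mpr hB)
    rw [this]; exact isBounded_empty
  · have hd : finrank ℚ K ≠ 0 := (Module.finrank_pos (R := ℚ) (M := K)).ne'
    set r : ℝ := B ^ ((finrank ℚ K : ℝ)⁻¹) with hr
    have hr0 : 0 < r := Real.rpow_pos_of_pos hB _
    have hrd : r ^ finrank ℚ K = B := Real.rpow_inv_natCast_pow hB.le hd
    obtain ⟨C, hC⟩ := (isBounded_iff_forall_norm_le (E := Pair671 K)).mp (isBounded_pairBody671 K)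
    refine isBounded_iff_forall_norm_le.mpr ⟨r * C, fun p hp => ?_⟩
    have hmem : r⁻¹ • p ∈ pairBody671 K := by
      refine ⟨smul_mem_pairCone671 hp.1 (inv_pos.mpr hr0), ?_⟩
      rw [pairGauge671_smul, abs_of_pos (inv_pos.mpr hr0), inv_pow, hrd]
      have h1 : B⁻¹ * pairGauge671 p ≤ 1 := by
        rw [inv_mul_le_iff₀ hB, mul_one]; exact hp.2
      have h0 : 0 ≤ B⁻¹ * pairGauge671 p :=
        mul_nonneg (inv_nonneg.mpr hB.le) (pairGauge671_nonneg p)
      calc (B⁻¹ * pairGauge671 p) ^ 2 ≤ 1 ^ 2 := pow_le_pow_left₀ h0 h1 2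
        _ = 1 := one_pow 2
    have h2 := hC _ hmem
    rw [_root_.norm_smul, Real.norm_of_nonneg (inv_pos.mpr hr0).le, inv_mul_le_iff₀ hr0] at h2
    exact h2

/-- A discrete subgroup has finitely many points in the cone with gauge `≤ B`. -/
theorem finite_coneSet71 (L : Submodule ℤ (Pair671 K)) [DiscreteTopology L] (B : ℝ) :
    (coneSet71 (L : Set (Pair671 K)) B).Finite := by
  classical
  have hcl : IsClosed (L : Set (Pair671 K)) := by
    have : DiscreteTopology L.toAddSubgroup := inferInstanceAs (DiscreteTopology L)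
    exact AddSubgroup.isClosed_of_discrete (H := L.toAddSubgroup)
  have hdisc : IsDiscrete (L : Set (Pair671 K)) :=
    isDiscrete_iff_discreteTopology.mpr (inferInstanceAs (DiscreteTopology L))
  have h := Metric.finite_isBounded_inter_isClosed (α := Pair671 K) hdisc
    (isBounded_coneGauge71 (K := K) B) hcl
  exact h.subset fun p hp => ⟨⟨hp.1, hp.2.1⟩, hp.2.2⟩

open scoped Classical in
/-- **Uniform bound for one lattice.**  `#{p ∈ L ∩ cone : gauge p ≤ B} ≤ C B²` for every real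
`B` (large `B`: the limit of `tendsto_card_pairCone671`; small `B`: no point; in between:
monotonicity). -/
theorem exists_coneBound71 (L : Submodule ℤ (Pair671 K)) [DiscreteTopology L]
    [IsZLattice ℝ L] :
    ∃ C : ℝ, 0 ≤ C ∧ ∀ B : ℝ, ((coneSet71 (L : Set (Pair671 K)) B).ncard : ℝ) ≤ C * B ^ 2 := by
  have hfin := finite_coneSet71 L
  have hHaar := haarPair671 K
  have hBorel := borelPair671 K
  -- large `B`
  have hlim := tendsto_card_pairCone671 (K := K) L
  set ℓ : ℝ := (volume (pairBody671 K)).toReal / ZLattice.covolume L volume with hℓ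
  have hℓ0 : 0 ≤ ℓ := div_nonneg ENNReal.toReal_nonneg (ZLattice.covolume_pos L volume).le
  have hcard : ∀ B : ℝ,
      (Nat.card {x : Pair671 K // x ∈ pairCone671 K ∧ pairGauge671 x ≤ B ∧ x ∈ L} : ℝ)
        = ((coneSet71 (L : Set (Pair671 K)) B).ncard : ℝ) := fun B => by
    rw [← Nat.card_coe_set_eq]
    rfl
  have hev : ∀ᶠ B : ℝ in atTop,
      ((coneSet71 (L : Set (Pair671 K)) B).ncard : ℝ) / B ^ 2 < ℓ + 1 := by
    have h1 := hlim.eventually_lt_const (lt_add_one ℓ)
    filter_upwards [h1] with B hB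
    rw [← hcard]; exact hB
  obtain ⟨B₁, hB₁one, hB₁⟩ : ∃ B₁ : ℝ, 1 ≤ B₁ ∧ ∀ B ≥ B₁,
      ((coneSet71 (L : Set (Pair671 K)) B).ncard : ℝ) / B ^ 2 < ℓ + 1 := by
    obtain ⟨b, hb⟩ := eventually_atTop.mp hev
    exact ⟨max b 1, le_max_right _ _, fun B hB => hb B ((le_max_left _ _).trans hB)⟩
  have hM : 0 < ℓ + 1 := by linarith
  have hlarge : ∀ B ≥ B₁, ((coneSet71 (L : Set (Pair671 K)) B).ncard : ℝ) ≤ (ℓ + 1) * B ^ 2 := by
    intro B hB
    have hBpos : 0 < B ^ 2 := by
      have : 0 < B := lt_of_lt_of_le one_pos (hB₁one.trans hB)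
      positivity
    exact ((div_lt_iff₀ hBpos).mp (hB₁ B hB)).le
  -- small `B`
  obtain ⟨B₀, hB₀pos, hB₀one, hB₀⟩ : ∃ B₀ : ℝ, 0 < B₀ ∧ B₀ ≤ 1 ∧
      ∀ B < B₀, coneSet71 (L : Set (Pair671 K)) B = ∅ := by
    rcases (coneSet71 (L : Set (Pair671 K)) 1).eq_empty_or_nonempty with hemp | hne
    · refine ⟨1, one_pos, le_rfl, fun B hB => ?_⟩
      exact Set.subset_eq_empty (coneSet71_mono _ hB.le) hemp
    · obtain ⟨a, ha, hmin⟩ := Set.exists_min_image _ pairGauge671 (hfin 1) hne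
      have hapos := pairGauge671_pos_of_mem_cone71 ha.1
      refine ⟨pairGauge671 a, hapos, ha.2.1, fun B hB => ?_⟩
      refine Set.eq_empty_of_forall_notMem fun p hp => ?_
      have hp1 : p ∈ coneSet71 (L : Set (Pair671 K)) 1 :=
        coneSet71_mono _ (hB.le.trans ha.2.1) hp
      exact absurd (lt_of_le_of_lt ((hmin p hp1).trans hp.2.1) hB) (lt_irrefl _)
  have hB₀sq : 0 < B₀ ^ 2 := by positivity
  have hB₁pos : 0 < B₁ := lt_of_lt_of_le one_pos hB₁one
  refine ⟨(ℓ + 1) * B₁ ^ 2 / B₀ ^ 2, by positivity, fun B => ?_⟩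
  rcases lt_or_ge B B₀ with h | h
  · rw [hB₀ B h, Set.ncard_empty, Nat.cast_zero]
    positivity
  · have hBpos : 0 < B := lt_of_lt_of_le hB₀pos h
    have hratio : B₀ ^ 2 ≤ B ^ 2 := pow_le_pow_left₀ hB₀pos.le h 2
    rcases le_or_gt B₁ B with h1 | h1
    · refine (hlarge B h1).trans ?_
      have h2 : B₀ ^ 2 ≤ B₁ ^ 2 := pow_le_pow_left₀ hB₀pos.le (hB₀one.trans hB₁one) 2
      rw [div_mul_eq_mul_div, le_div_iff₀ hB₀sq]
      have h3 : 0 ≤ (ℓ + 1) * B ^ 2 := by positivity
      nlinarith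
    · have hmono : (coneSet71 (L : Set (Pair671 K)) B).ncard
          ≤ (coneSet71 (L : Set (Pair671 K)) B₁).ncard :=
        Set.ncard_le_ncard (coneSet71_mono _ h1.le) (hfin B₁)
      have h2 : ((coneSet71 (L : Set (Pair671 K)) B).ncard : ℝ) ≤ (ℓ + 1) * B₁ ^ 2 :=
        (Nat.cast_le.mpr hmono).trans (hlarge B₁ le_rfl)
      refine h2.trans ?_
      rw [div_mul_eq_mul_div, le_div_iff₀ hB₀sq]
      have h3 : 0 ≤ (ℓ + 1) * B₁ ^ 2 := by positivity
      nlinarith

/-! ## Multiplication by `l ∈ Kˣ` and the cone -/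

/-- Multiplication of both components by the image of `l ∈ K`. -/
def mulK71 (l : K) (p : Pair671 K) : Pair671 K :=
  (mixedEmbedding K l * p.1, mixedEmbedding K l * p.2)

theorem unitPair671_eq_mulK71 (u : (𝓞 K)ˣ) (p : Pair671 K) :
    unitPair671 u p = mulK71 ((u : 𝓞 K) : K) p := rfl

theorem mulK71_mul (l l' : K) (p : Pair671 K) : mulK71 (l * l') p = mulK71 l (mulK71 l' p) := by
  unfold mulK71
  rw [map_mul, mul_assoc, mul_assoc]

theorem mulK71_one (p : Pair671 K) : mulK71 (1 : K) p = p := by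
  unfold mulK71
  rw [map_one, one_mul, one_mul]

theorem mulK71_comm (l l' : K) (p : Pair671 K) :
    mulK71 l (mulK71 l' p) = mulK71 l' (mulK71 l p) := by
  rw [← mulK71_mul, ← mulK71_mul, mul_comm]

theorem mulK71_inv_cancel {l : K} (hl : l ≠ 0) (p : Pair671 K) :
    mulK71 l (mulK71 l⁻¹ p) = p := by
  rw [← mulK71_mul, mul_inv_cancel₀ hl, mulK71_one]

theorem mulK71_cancel_inv {l : K} (hl : l ≠ 0) (p : Pair671 K) :
    mulK71 l⁻¹ (mulK71 l p) = p := by
  rw [← mulK71_mul, inv_mul_cancel₀ hl, mulK71_one]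

theorem mulK71_injective {l : K} (hl : l ≠ 0) : Function.Injective (mulK71 (K := K) l) :=
  fun p q h => by
    rw [← mulK71_cancel_inv hl p, h, mulK71_cancel_inv hl q]

theorem unit_ne_zero71 (u : (𝓞 K)ˣ) : (((u : 𝓞 K) : K)) ≠ 0 :=
  fun h => u.ne_zero (RingOfIntegers.coe_eq_zero_iff.mp h)

/-- `∏_{w ∣ ∞} |l|_w ^ [K_w : ℝ]` (`= |N l|`). -/
def nrm71 (l : K) : ℝ := ∏ w : InfinitePlace K, w l ^ w.mult

theorem nrm71_pos {l : K} (hl : l ≠ 0) : 0 < nrm71 l :=
  Finset.prod_pos fun w _ => pow_pos (w.pos_iff.mpr hl) _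

theorem nrm71_inv (l : K) : nrm71 l⁻¹ = (nrm71 l)⁻¹ := by
  unfold nrm71
  rw [← Finset.prod_inv_distrib]
  exact Finset.prod_congr rfl fun w _ => by rw [map_inv₀, inv_pow]

theorem pairGauge671_mulK71 (l : K) (p : Pair671 K) :
    pairGauge671 (mulK71 l p) = nrm71 l * pairGauge671 p := by
  unfold nrm71
  rw [pairGauge671_eq_prod, pairGauge671_eq_prod, ← Finset.prod_mul_distrib]
  refine Finset.prod_congr rfl fun w _ => ?_
  unfold mulK71
  rw [pairNorm671_mul, normAtPlace_apply, mul_pow]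

/-- The cone is stable under the roots of unity, in both directions. -/
theorem torsion_smul_mem_cone_iff71 {ζ : (𝓞 K)ˣ} (hζ : ζ ∈ torsion K) (z : Pair671 K) :
    unitPair671 ζ z ∈ pairCone671 K ↔ z ∈ pairCone671 K := by
  constructor
  · intro h
    have h1 := (unit_smul_mem_pairCone671_iff h ζ⁻¹).mpr (inv_mem hζ)
    rwa [← unitPair671_mul, inv_mul_cancel, unitPair671_one] at h1
  · intro h
    exact (unit_smul_mem_pairCone671_iff h ζ).mpr hζ

open scoped Classical in
/-- A choice of an element in a set of units (`1` if the set is empty). -/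
def selUnit71 (s : Set (𝓞 K)ˣ) : (𝓞 K)ˣ := if h : s.Nonempty then h.some else 1

theorem selUnit71_mem {s : Set (𝓞 K)ˣ} (h : s.Nonempty) : selUnit71 s ∈ s := by
  unfold selUnit71
  rw [dif_pos h]
  exact h.some_mem

/-- The units which move `l⁻¹ p` into the cone. -/
def coneUnits71 (l : K) (p : Pair671 K) : Set (𝓞 K)ˣ :=
  {u | unitPair671 u (mulK71 l⁻¹ p) ∈ pairCone671 K}

/-- `p ↦` the chosen representative in the cone of the orbit of `l⁻¹ p`. -/
def coneMap71 (l : K) (p : Pair671 K) : Pair671 K :=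
  unitPair671 (selUnit71 (coneUnits71 l p)) (mulK71 l⁻¹ p)

theorem coneUnits71_nonempty {l : K} (hl : l ≠ 0) {p : Pair671 K} (hp : p ∈ pairCone671 K) :
    (coneUnits71 l p).Nonempty := by
  have h1 : pairGauge671 (mulK71 l⁻¹ p) ≠ 0 := by
    rw [pairGauge671_mulK71]
    exact mul_ne_zero (nrm71_pos (inv_ne_zero hl)).ne' (pairGauge671_ne_zero_of_mem_cone hp)
  exact exists_unit_smul_mem_pairCone671 h1

theorem coneMap71_mem_cone {l : K} (hl : l ≠ 0) {p : Pair671 K} (hp : p ∈ pairCone671 K) :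
    coneMap71 l p ∈ pairCone671 K :=
  selUnit71_mem (coneUnits71_nonempty hl hp)

theorem pairGauge671_coneMap71 (l : K) (p : Pair671 K) :
    pairGauge671 (coneMap71 l p) = pairGauge671 p / nrm71 l := by
  unfold coneMap71
  rw [pairGauge671_unit_smul, pairGauge671_mulK71, nrm71_inv, inv_mul_eq_div]

theorem coneMap71_injOn {l : K} (hl : l ≠ 0) :
    Set.InjOn (coneMap71 (K := K) l) (pairCone671 K) := by
  intro p hp q hq hpq
  set u := selUnit71 (coneUnits71 l p) with hu
  set v := selUnit71 (coneUnits71 l q) with hv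
  have hpq' : unitPair671 u (mulK71 l⁻¹ p) = unitPair671 v (mulK71 l⁻¹ q) := hpq
  -- `p = (u⁻¹ v) q`
  have h1 : unitPair671 (u⁻¹ * v) q = p := by
    have h2 : unitPair671 v q = unitPair671 u p := by
      have h3 := congrArg (mulK71 l) hpq'
      rw [unitPair671_eq_mulK71, unitPair671_eq_mulK71, mulK71_comm l, mulK71_comm l (v : K),
        mulK71_inv_cancel hl, mulK71_inv_cancel hl] at h3
      exact h3.symm
    rw [unitPair671_mul, h2, ← unitPair671_mul, inv_mul_cancel, unitPair671_one]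
  have hζ : u⁻¹ * v ∈ torsion K :=
    (unit_smul_mem_pairCone671_iff hq (u⁻¹ * v)).mp (by rw [h1]; exact hp)
  -- the two sets of units agree
  have hsets : coneUnits71 l p = coneUnits71 l q := by
    ext w
    unfold coneUnits71
    rw [Set.mem_ofPred_eq, Set.mem_ofPred_eq, ← h1]
    have h4 : unitPair671 w (mulK71 l⁻¹ (unitPair671 (u⁻¹ * v) q))
        = unitPair671 (u⁻¹ * v) (unitPair671 w (mulK71 l⁻¹ q)) := by
      simp only [unitPair671_eq_mulK71]
      rw [mulK71_comm l⁻¹, mulK71_comm ((w : 𝓞 K) : K)]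
    rw [h4]
    exact torsion_smul_mem_cone_iff71 hζ _
  have huv : u = v := by rw [hu, hv, hsets]
  rw [huv] at hpq'
  have h5 : mulK71 l⁻¹ p = mulK71 l⁻¹ q := by
    have := congrArg (unitPair671 v⁻¹) hpq'
    rwa [← unitPair671_mul, ← unitPair671_mul, inv_mul_cancel, unitPair671_one,
      unitPair671_one] at this
  exact mulK71_injective (inv_ne_zero hl) h5

/-- **Change of the lattice by `l ∈ Kˣ`.**  If `L` is stable under the units, the points `p` of
the cone with gauge `≤ B` and `l⁻¹ p ∈ L` inject into the points of `L` in the cone with gauge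
`≤ B / |N l|`. -/
theorem ncard_mulK_le71 (L : Set (Pair671 K))
    (hL : ∀ (u : (𝓞 K)ˣ) (p : Pair671 K), p ∈ L → unitPair671 u p ∈ L)
    {l : K} (hl : l ≠ 0) (B : ℝ) (S : Set (Pair671 K))
    (hS : ∀ p ∈ S, p ∈ pairCone671 K ∧ pairGauge671 p ≤ B ∧ mulK71 l⁻¹ p ∈ L)
    (hfin : (coneSet71 L (B / nrm71 l)).Finite) :
    S.ncard ≤ (coneSet71 L (B / nrm71 l)).ncard := by
  have hN : 0 < nrm71 l := nrm71_pos hl
  refine Set.ncard_le_ncard_of_injOn (coneMap71 l) (fun p hp => ?_)
    ((coneMap71_injOn hl).mono fun p hp => (hS p hp).1) hfin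
  refine ⟨coneMap71_mem_cone hl (hS p hp).1, ?_, hL _ _ (hS p hp).2.2⟩
  rw [pairGauge671_coneMap71]
  exact div_le_div_of_nonneg_right (hS p hp).2.1 hN.le

end Fermat.Agent.LT.T7.H71

end
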