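import Mathlib
import Fermat.Agent.LT.T7.H671.LimSpec
import Fermat.Agent.LT.T7.H671.ConeOrbit
import Fermat.Agent.LT.T7.H71.TailLat
import Fermat.Agent.LT.T1.Spec

/-!
# Row LT, tower T7, node T7.14, leaf T7.14.3j `TailC` (helper71), OFF-MAIN

`tailC_of71 : IdeleClassC K → CovolC K → H671.TailC K` and, in the form of the registry row,
`tailC71 : IdeleClassC K → CovolC K → T1.T1Out K → H671.TailC K` (the hypothesis `T1Out` is not
used: the product formula is Mathlib's `NumberField.prod_abs_eq_one`).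

For a finite idele `a` write `‖a_v‖ = ‖l‖_v ‖c_v‖` with `c` one of the finitely many class
representatives and `l ∈ Kˣ`.  Then `latG (h a⁻¹) = l · latG (h c⁻¹)` (`latG_scale71`), the lattice
`latG (h c⁻¹)` is stable under the units, so the points of `l · latG (h c⁻¹)` in the cone with
gauge `≤ B` inject into the points of `latG (h c⁻¹)` in the cone with gauge `≤ B / |N l|`
(`TailLat.ncard_mulK_le71`), `|N l|⁻¹ = ∏_v ‖l‖_v = finNormI a / finNormI c` (product formula), and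
each of the finitely many lattices has a bound `C B²` (`TailLat.exists_coneBound71`).
-/

set_option autoImplicit false
set_option linter.unusedSectionVars false

open AutomorphicForm IsDedekindDomain NumberField Filter Topology MeasureTheory
open NumberField.mixedEmbedding NumberField.InfinitePlace

noncomputable section

namespace Fermat.Agent.LT.T7.H71

open Fermat.Agent.LT.H556 Fermat.Agent.LT.H556.A0 Fermat.Agent.LT.T7 Fermat.Agent.LT.T7.Rigid
open Fermat.Agent.LT.T7.H671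

variable {K : Type} [Field K] [NumberField K]

/-! ## Components of `x · (1, b)` -/

theorem finIdl_fst71 (b : (FiniteAdeleRing (𝓞 K) K)ˣ) :
    ((finIdl671 b : (Adl K)ˣ) : Adl K).1 = 1 := rfl

theorem finIdl_snd71 (b : (FiniteAdeleRing (𝓞 K) K)ˣ) :
    ((finIdl671 b : (Adl K)ˣ) : Adl K).2 = (b : FiniteAdeleRing (𝓞 K) K) := rfl

theorem infMixed_mul_finIdl71 (x : Adl K) (b : (FiniteAdeleRing (𝓞 K) K)ˣ) :
    infMixed671 (x * ((finIdl671 b : (Adl K)ˣ) : Adl K)) = infMixed671 x := by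
  unfold infMixed671
  rw [adl_fst_mul671, finIdl_fst71, mul_one]

theorem snd_mul_finIdl71 (x : Adl K) (b : (FiniteAdeleRing (𝓞 K) K)ˣ)
    (v : HeightOneSpectrum (𝓞 K)) :
    (x * ((finIdl671 b : (Adl K)ˣ) : Adl K)).2 v = x.2 v * (b : FiniteAdeleRing (𝓞 K) K) v :=
  rfl

theorem norm_inv_apply71 (b : (FiniteAdeleRing (𝓞 K) K)ˣ) (v : HeightOneSpectrum (𝓞 K)) :
    ‖((b⁻¹ : (FiniteAdeleRing (𝓞 K) K)ˣ) : FiniteAdeleRing (𝓞 K) K) v‖
      = ‖(b : FiniteAdeleRing (𝓞 K) K) v‖⁻¹ := by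
  have h1 : ((b⁻¹ : (FiniteAdeleRing (𝓞 K) K)ˣ) : FiniteAdeleRing (𝓞 K) K) v
      * (b : FiniteAdeleRing (𝓞 K) K) v = 1 := by
    have h2 : ((b⁻¹ : (FiniteAdeleRing (𝓞 K) K)ˣ) : FiniteAdeleRing (𝓞 K) K)
        * (b : FiniteAdeleRing (𝓞 K) K) = 1 := b.inv_mul
    have h3 := congrArg (fun y : FiniteAdeleRing (𝓞 K) K => y v) h2
    exact h3
  have h4 := congrArg norm h1
  rw [norm_mul, norm_one] at h4
  exact eq_inv_of_mul_eq_one_left h4

theorem norm_apply_pos71 (b : (FiniteAdeleRing (𝓞 K) K)ˣ) (v : HeightOneSpectrum (𝓞 K)) :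
    0 < ‖(b : FiniteAdeleRing (𝓞 K) K) v‖ :=
  norm_pos_iff.mpr ((FiniteAdeleRing.isUnit_iff.mp b.isUnit).1 v)

/-! ## Rows -/

theorem rowOf_mul_scF71 (ξ : Fin 2 → K) (h : G K) (b : (FiniteAdeleRing (𝓞 K) K)ˣ)
    (j : Fin 2) :
    rowOf ξ (h * scF671 b) j = rowOf ξ h j * ((finIdl671 b : (Adl K)ˣ) : Adl K) := by
  have hm : ((h * scF671 b : G K) : Matrix (Fin 2) (Fin 2) (Adl K))
      = (h : Matrix (Fin 2) (Fin 2) (Adl K)) * (scF671 b : Matrix (Fin 2) (Fin 2) (Adl K)) :=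
    rfl
  have hs : (scF671 b : Matrix (Fin 2) (Fin 2) (Adl K))
      = !![((finIdl671 b : (Adl K)ˣ) : Adl K), 0; 0, ((finIdl671 b : (Adl K)ˣ) : Adl K)] := rfl
  unfold rowOf
  rw [hm, hs]
  fin_cases j <;> simp [Matrix.mul_apply, Fin.sum_univ_two] <;> ring

theorem pairOf_rowOf_mul_scF71 (ξ : Fin 2 → K) (h : G K) (b : (FiniteAdeleRing (𝓞 K) K)ˣ) :
    pairOf671 (rowOf ξ (h * scF671 b)) = pairOf671 (rowOf ξ h) := by
  unfold pairOf671
  rw [rowOf_mul_scF71, rowOf_mul_scF71, infMixed_mul_finIdl71, infMixed_mul_finIdl71]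

theorem isIntRow671_iff71 (r : Fin 2 → Adl K) :
    IsIntRow671 r ↔ ∀ (v : HeightOneSpectrum (𝓞 K)) (j : Fin 2), ‖(r j).2 v‖ ≤ 1 := by
  unfold IsIntRow671
  refine forall_congr' fun v => forall_congr' fun j => ?_
  rw [HeightOneSpectrum.mem_adicCompletionIntegers, Valued.toNormedField.norm_le_one_iff]

/-- Integrality of `ξ (h b⁻¹)` in terms of `ξ h`. -/
theorem isIntRow_mul_scF_inv71 (ξ : Fin 2 → K) (h : G K) (b : (FiniteAdeleRing (𝓞 K) K)ˣ) :
    IsIntRow671 (rowOf ξ (h * scF671 b⁻¹)) ↔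
      ∀ (v : HeightOneSpectrum (𝓞 K)) (j : Fin 2),
        ‖(rowOf ξ h j).2 v‖ ≤ ‖(b : FiniteAdeleRing (𝓞 K) K) v‖ := by
  rw [isIntRow671_iff71]
  refine forall_congr' fun v => forall_congr' fun j => ?_
  rw [rowOf_mul_scF71, snd_mul_finIdl71, norm_mul, norm_inv_apply71,
    ← div_eq_mul_inv, div_le_one (norm_apply_pos71 b v)]

theorem snd_algebraMap_mul71 (c : K) (x : Adl K) (v : HeightOneSpectrum (𝓞 K)) :
    (algebraMap K (Adl K) c * x).2 v = algebraMap K (v.adicCompletion K) c * x.2 v := rfl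

theorem pairOf_smul71 (c : K) (r : Fin 2 → Adl K) :
    pairOf671 (fun j => algebraMap K (Adl K) c * r j) = mulK71 c (pairOf671 r) := by
  unfold pairOf671 mulK71
  rw [infMixed671_mul, infMixed671_mul, infMixed671_algebraMap]

/-! ## The lattices -/

theorem norm_algebraMap_unit71 (u : (𝓞 K)ˣ) (v : HeightOneSpectrum (𝓞 K)) :
    ‖algebraMap K (v.adicCompletion K) ((u : 𝓞 K) : K)‖ ≤ 1 := by
  rw [Valued.toNormedField.norm_le_one_iff]
  have h := HeightOneSpectrum.valuedAdicCompletion_eq_valuation' v (((u : 𝓞 K) : K))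
  have h1 : Valued.v (algebraMap K (v.adicCompletion K) ((u : 𝓞 K) : K))
      = v.valuation K ((u : 𝓞 K) : K) := h
  rw [h1]
  exact HeightOneSpectrum.valuation_le_one v (u : 𝓞 K)

/-- `latG671 g` is stable under the units. -/
theorem latG_unit_stable71 (g : G K) (u : (𝓞 K)ˣ) (p : Pair671 K) (hp : p ∈ latG671 g) :
    unitPair671 u p ∈ latG671 g := by
  obtain ⟨x, hx, rfl⟩ := mem_latG671.mp hp
  refine mem_latG671.mpr ⟨((u : 𝓞 K) : K) • x, ?_, ?_⟩
  · rw [rowOf_smul671, isIntRow671_iff71]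
    intro v j
    rw [snd_algebraMap_mul71, norm_mul]
    have h1 := norm_algebraMap_unit71 u v
    have h2 := (isIntRow671_iff71 _).mp hx v j
    calc ‖algebraMap K (v.adicCompletion K) ((u : 𝓞 K) : K)‖ * ‖(rowOf x g j).2 v‖
        ≤ 1 * 1 := mul_le_mul h1 h2 (norm_nonneg _) zero_le_one
      _ = 1 := one_mul 1
  · rw [rowOf_smul671, pairOf_smul71, unitPair671_eq_mulK71]

/-- **Scaling.**  If `‖a_v‖ = ‖l‖_v ‖c_v‖` at every finite place, then
`latG (h a⁻¹) ⊆ l · latG (h c⁻¹)`. -/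
theorem latG_scale71 (h : G K) (a c : (FiniteAdeleRing (𝓞 K) K)ˣ) (l : Kˣ)
    (hl : ∀ v : HeightOneSpectrum (𝓞 K), ‖(a : FiniteAdeleRing (𝓞 K) K) v‖
      = ‖algebraMap K (v.adicCompletion K) (l : K)‖ * ‖(c : FiniteAdeleRing (𝓞 K) K) v‖)
    (p : Pair671 K) (hp : p ∈ latG671 (h * scF671 a⁻¹)) :
    mulK71 ((l : K)⁻¹) p ∈ latG671 (h * scF671 c⁻¹) := by
  obtain ⟨x, hx, rfl⟩ := mem_latG671.mp hp
  rw [isIntRow_mul_scF_inv71] at hx
  refine mem_latG671.mpr ⟨((l : K)⁻¹) • x, ?_, ?_⟩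
  · rw [isIntRow_mul_scF_inv71]
    intro v j
    rw [rowOf_smul671, snd_algebraMap_mul71, norm_mul, map_inv₀, norm_inv]
    have hlpos : 0 < ‖algebraMap K (v.adicCompletion K) (l : K)‖ :=
      norm_pos_iff.mpr ((map_ne_zero _).mpr l.ne_zero)
    rw [inv_mul_le_iff₀ hlpos, ← hl v]
    exact hx v j
  · rw [pairOf_rowOf_mul_scF71, pairOf_rowOf_mul_scF71, rowOf_smul671, pairOf_smul71]

/-! ## The product formula -/

theorem hasFiniteMulSupport_fin71 (b : (FiniteAdeleRing (𝓞 K) K)ˣ) :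
    (Function.mulSupport fun v : HeightOneSpectrum (𝓞 K) =>
      ‖(b : FiniteAdeleRing (𝓞 K) K) v‖).Finite := by
  have h := (FiniteAdeleRing.isUnit_iff.mp b.isUnit).2
  rw [Filter.eventually_cofinite] at h
  refine h.subset fun v hv => ?_
  simp only [Function.mem_mulSupport] at hv
  simp only [Set.mem_ofPred_eq]
  intro h1
  apply hv
  rw [le_antisymm_iff, Valued.toNormedField.norm_le_one_iff,
    Valued.toNormedField.one_le_norm_iff]
  exact ⟨h1.le, h1.ge⟩

theorem finNormI_pos71 (b : (FiniteAdeleRing (𝓞 K) K)ˣ) : 0 < finNormI671 b := by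
  unfold finNormI671
  exact finprod_induction (fun r : ℝ => 0 < r) one_pos (fun _ _ => mul_pos)
    fun v => norm_apply_pos71 b v

theorem finprod_norm_algebraMap71 (l : Kˣ) :
    ∏ᶠ v : HeightOneSpectrum (𝓞 K), ‖algebraMap K (v.adicCompletion K) (l : K)‖
      = (nrm71 (l : K))⁻¹ := by
  have h1 : (∏ᶠ v : HeightOneSpectrum (𝓞 K), ‖algebraMap K (v.adicCompletion K) (l : K)‖)
      = ∏ᶠ w : FinitePlace K, w (l : K) :=
    finprod_eq_of_bijective (f := fun v : HeightOneSpectrum (𝓞 K) =>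
      ‖algebraMap K (v.adicCompletion K) (l : K)‖) (g := fun w : FinitePlace K => w (l : K))
      FinitePlace.equivHeightOneSpectrum.symm FinitePlace.equivHeightOneSpectrum.symm.bijective
      (fun _ => rfl)
  have h2 := prod_abs_eq_one (K := K) l.ne_zero
  rw [h1]
  exact eq_inv_of_mul_eq_one_right h2

theorem hasFiniteMulSupport_alg71 (l : Kˣ) :
    (Function.mulSupport fun v : HeightOneSpectrum (𝓞 K) =>
      ‖algebraMap K (v.adicCompletion K) (l : K)‖).Finite := by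
  have h := FinitePlace.hasFiniteMulSupport (K := K) l.ne_zero
  have h2 := h.preimage (FinitePlace.equivHeightOneSpectrum (K := K)).symm.injective.injOn
  refine h2.subset fun v hv => ?_
  exact hv

/-- `finNormI a = |N l|⁻¹ · finNormI c` if `‖a_v‖ = ‖l‖_v ‖c_v‖` at every finite place. -/
theorem finNormI_scale71 (a c : (FiniteAdeleRing (𝓞 K) K)ˣ) (l : Kˣ)
    (hl : ∀ v : HeightOneSpectrum (𝓞 K), ‖(a : FiniteAdeleRing (𝓞 K) K) v‖
      = ‖algebraMap K (v.adicCompletion K) (l : K)‖ * ‖(c : FiniteAdeleRing (𝓞 K) K) v‖) :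
    finNormI671 a = (nrm71 (l : K))⁻¹ * finNormI671 c := by
  unfold finNormI671
  rw [← finprod_norm_algebraMap71 l,
    ← finprod_mul_distrib (hasFiniteMulSupport_alg71 l) (hasFiniteMulSupport_fin71 c)]
  exact finprod_congr hl

/-! ## The leaf -/

open scoped Classical in
/-- **T7.14.3j `TailC`.**  Uniform bound for the lattice points of the cone in the lattices of
`h · a⁻¹`, `a` a finite idele. -/
theorem tailC_of71 (hcls : IdeleClassC K) (hcov : CovolC K) : TailC K := by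
  intro h
  obtain ⟨n, c, hc⟩ := hcls
  obtain ⟨c₀, hc₀, hcv⟩ := hcov
  have hb : ∀ i : Fin n, ∃ C : ℝ, 0 ≤ C ∧ ∀ B : ℝ,
      ((coneSet71 ((latG671 (h * scF671 (c i)⁻¹) : Submodule ℤ (Pair671 K)) :
        Set (Pair671 K)) B).ncard : ℝ) ≤ C * B ^ 2 := by
    intro i
    obtain ⟨hd, hz, -⟩ := hcv (h * scF671 (c i)⁻¹)
    exact exists_coneBound71 _
  choose Cb hCb0 hCb using hb
  refine ⟨∑ i, Cb i / finNormI671 (c i) ^ 2, fun a B => ?_⟩
  obtain ⟨i, l, hl⟩ := hc.1 a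
  have hfin : (coneSet71 ((latG671 (h * scF671 (c i)⁻¹) : Submodule ℤ (Pair671 K)) :
      Set (Pair671 K)) (B / nrm71 (l : K))).Finite := by
    obtain ⟨hd, hz, -⟩ := hcv (h * scF671 (c i)⁻¹)
    exact finite_coneSet71 _ _
  have h1 := ncard_mulK_le71
    ((latG671 (h * scF671 (c i)⁻¹) : Submodule ℤ (Pair671 K)) : Set (Pair671 K))
    (fun u p hp => latG_unit_stable71 _ u p hp) l.ne_zero B
    (coneLat671 B (h * scF671 a⁻¹))
    (fun p hp => ⟨hp.1, hp.2.1, latG_scale71 h a (c i) l hl p hp.2.2⟩) hfin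
  have h2 := hCb i (B / nrm71 (l : K))
  have h3 := finNormI_scale71 a (c i) l hl
  have hcpos := finNormI_pos71 (c i)
  have hnpos := nrm71_pos (K := K) l.ne_zero
  have h4 : Cb i * (B / nrm71 (l : K)) ^ 2
      = Cb i / finNormI671 (c i) ^ 2 * B ^ 2 * finNormI671 a ^ 2 := by
    rw [h3]
    field_simp
  have h5 : Cb i / finNormI671 (c i) ^ 2 ≤ ∑ j, Cb j / finNormI671 (c j) ^ 2 :=
    Finset.single_le_sum (f := fun j => Cb j / finNormI671 (c j) ^ 2)
      (fun j _ => div_nonneg (hCb0 j) (sq_nonneg _)) (Finset.mem_univ i)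
  calc ((coneLat671 B (h * scF671 a⁻¹)).ncard : ℝ)
      ≤ ((coneSet71 ((latG671 (h * scF671 (c i)⁻¹) : Submodule ℤ (Pair671 K)) :
          Set (Pair671 K)) (B / nrm71 (l : K))).ncard : ℝ) := Nat.cast_le.mpr h1
    _ ≤ Cb i * (B / nrm71 (l : K)) ^ 2 := h2
    _ = Cb i / finNormI671 (c i) ^ 2 * B ^ 2 * finNormI671 a ^ 2 := h4
    _ ≤ (∑ j, Cb j / finNormI671 (c j) ^ 2) * B ^ 2 * finNormI671 a ^ 2 := by
        have hB : 0 ≤ B ^ 2 * finNormI671 a ^ 2 := by positivity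
        rw [mul_assoc, mul_assoc]
        exact mul_le_mul_of_nonneg_right h5 hB

/-- **T7.14.3j `TailC`**, in the form of the registry row. -/
theorem tailC71 (hcls : IdeleClassC K) (hcov : CovolC K)
    (_ht1 : Fermat.Agent.LT.T1.T1Out K) : TailC K :=
  tailC_of71 hcls hcov

end Fermat.Agent.LT.T7.H71

end
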