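import Mathlib
import Fermat.Agent.LT.T7.H340.UpFactSpec

/-!
# Row LT, tower T7, node C2.7.13.1 `UpFactC340`, leaf UF.B3 `RayFinUpC340` (helper71)

OFF-MAIN.  Registry row 2751.  Spec: `LT/T7/H340/UpFactSpec.lean` (helper340@4a08d18e4, sha256
04981afb).

    rayFinUpC71 (K K') : H340.RayFinUpC340 K K'        VERBATIM, UNCONDITIONAL

## Proof

Fix an infinite place `v` of `K`, the data `d = dA v` and `l = D.l > 0` (`IsArchDat340.pos`).
If the twisted product `∏_a Φ_{w_a}(Z_a⁻¹ δ_a Z_{a+1})` (indices modulo `l`) does not vanish,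
every argument lies in the support of `Φ_{w_a}`, on which `|det|` and `|det|⁻¹` are bounded
(compact support).  The product of the `|det|` of the arguments telescopes (`cycSucc340` is a
bijection of `Fin l`): it is `∏_a |det δ_a|`, and
`|det δ_a| = |det d_a((δ r'^j)_{w_a})| = |det δ_{w_a}| (t²)^j` (`d_a` is the identity or the
complex conjugation, `r'` is the scalar `t` at the infinite places, `t > 1`).  So
`c s^j ≤ B` and `(c s^j)⁻¹ ≤ B'` with `s = (t²)^l > 1`, `c > 0`: this excludes `|j| > N`.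
`J` is the union over `v` of the intervals `[-N_v, N_v]`.

Only Mathlib and the Spec are imported.  Every declaration of this file is in the namespace
`Fermat.Agent.LT.T7.H71` and ends in `71`; no equation lemma of an imported definition is used
(`show` / `rfl` only).
-/

set_option autoImplicit false
set_option linter.unusedSectionVars false

open IsDedekindDomain NumberField

noncomputable section

namespace Fermat.Agent.LT.T7.H71

open Fermat.Agent.LT.H556 Fermat.Agent.LT.H556.A0 Fermat.Agent.LT.T7 Fermat.Agent.LT.T7.H305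
open Fermat.Agent.LT.T7.H340

/-! ## 1. `|det|` on `GL₂(ℂ)` -/

/-- `|det|` on `GL₂(ℂ)`, as a homomorphism to the multiplicative monoid of `ℝ`. -/
def absDetHom71 : GL (Fin 2) ℂ →* ℝ where
  toFun B := ‖(B : Matrix (Fin 2) (Fin 2) ℂ).det‖
  map_one' := by simp
  map_mul' A B := by simp only [Units.val_mul, Matrix.det_mul, norm_mul]

theorem absDetHom_apply71 (B : GL (Fin 2) ℂ) :
    absDetHom71 B = ‖(B : Matrix (Fin 2) (Fin 2) ℂ).det‖ := rfl

theorem absDetHom_pos71 (B : GL (Fin 2) ℂ) : 0 < absDetHom71 B := by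
  have h : IsUnit (B : Matrix (Fin 2) (Fin 2) ℂ).det :=
    (Matrix.isUnit_iff_isUnit_det _).1 B.isUnit
  rw [absDetHom_apply71]
  exact norm_pos_iff.2 h.ne_zero

theorem continuous_absDetHom71 : Continuous fun B : GL (Fin 2) ℂ => absDetHom71 B :=
  continuous_norm.comp (Continuous.matrix_det Units.continuous_val)

/-- `|det|` is invariant under the identity and the complex conjugation of the entries. -/
theorem absDetHom_map71 (f : ℂ →+* ℂ) (hf : f = RingHom.id ℂ ∨ f = starRingEnd ℂ)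
    (B : GL (Fin 2) ℂ) :
    absDetHom71 (Matrix.GeneralLinearGroup.map f B) = absDetHom71 B := by
  have h1 : ((Matrix.GeneralLinearGroup.map f B : GL (Fin 2) ℂ) : Matrix (Fin 2) (Fin 2) ℂ)
      = f.mapMatrix (B : Matrix (Fin 2) (Fin 2) ℂ) := rfl
  rw [absDetHom_apply71, absDetHom_apply71, h1, ← RingHom.map_det]
  rcases hf with rfl | rfl
  · rfl
  · exact RCLike.norm_conj _

/-- The bounds on the support. -/
theorem bounds_on_support71 (f : GL (Fin 2) ℂ → ℂ) (hf : HasCompactSupport f) :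
    ∃ b b' : ℝ, ∀ B : GL (Fin 2) ℂ, f B ≠ 0 → absDetHom71 B ≤ b ∧ (absDetHom71 B)⁻¹ ≤ b' := by
  have hK : IsCompact (tsupport f) := hf
  obtain ⟨b, hb⟩ := hK.bddAbove_image continuous_absDetHom71.continuousOn
  have hc' : Continuous fun B : GL (Fin 2) ℂ => (absDetHom71 B)⁻¹ :=
    continuous_absDetHom71.inv₀ (fun B => (absDetHom_pos71 B).ne')
  obtain ⟨b', hb'⟩ := hK.bddAbove_image hc'.continuousOn
  refine ⟨b, b', fun B hB => ?_⟩
  have hmem : B ∈ tsupport f := subset_tsupport f hB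
  exact ⟨hb (Set.mem_image_of_mem _ hmem), hb' (Set.mem_image_of_mem _ hmem)⟩

/-! ## 2. The cyclic successor and the telescoping product -/

theorem cycSucc_injective71 (l : ℕ) : Function.Injective (cycSucc340 (l := l)) := by
  intro a b hab
  have h1 : (a.1 + 1) % l = (b.1 + 1) % l := congrArg Fin.val hab
  have h2 : a.1 ≡ b.1 [MOD l] := Nat.ModEq.add_right_cancel' 1 h1
  have h3 : a.1 % l = b.1 % l := h2
  rw [Nat.mod_eq_of_lt a.2, Nat.mod_eq_of_lt b.2] at h3
  exact Fin.ext h3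

theorem cycSucc_bijective71 (l : ℕ) : Function.Bijective (cycSucc340 (l := l)) :=
  Finite.injective_iff_bijective.1 (cycSucc_injective71 l)

/-- The telescoping product along the cycle. -/
theorem prod_cycle71 (l : ℕ) (u d : Fin l → ℝ) (hu : ∀ a, 0 < u a) :
    ∏ a : Fin l, ((u a)⁻¹ * d a * u (cycSucc340 a)) = ∏ a : Fin l, d a := by
  have h1 : ∏ a : Fin l, u (cycSucc340 a) = ∏ a : Fin l, u a :=
    (cycSucc_bijective71 l).prod_comp u
  have h2 : (∏ a : Fin l, u a) ≠ 0 := (Finset.prod_pos fun a _ => hu a).ne'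
  rw [Finset.prod_mul_distrib, Finset.prod_mul_distrib, Finset.prod_inv_distrib, h1]
  field_simp

/-! ## 3. The ray generator -/

variable {K' : Type} [Field K'] [NumberField K']

/-- `|det|` of the ray generator at an infinite place. -/
theorem absDetHom_rayGen71 {r : G K'} {t : ℝ} (ht0 : 0 < t) (w : InfinitePlace K')
    (htw : infComp w r = Matrix.diagonal (fun _ => (t : ℂ))) :
    absDetHom71 (infGL305 w r) = t ^ 2 := by
  have h1 : ((infGL305 w r : GL (Fin 2) ℂ) : Matrix (Fin 2) (Fin 2) ℂ) = infComp w r := rfl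
  rw [absDetHom_apply71, h1, htw, Matrix.det_diagonal]
  simp [abs_of_pos ht0]

theorem one_lt_of_rayGen71 {t : ℝ} (ht0 : 0 < t) (ht2 : t ^ (2 * Module.finrank ℚ K') = 2) :
    1 < t := by
  by_contra h
  rw [not_lt] at h
  have h1 : t ^ (2 * Module.finrank ℚ K') ≤ 1 := pow_le_one₀ ht0.le h
  rw [ht2] at h1
  norm_num at h1

/-- Integers of large absolute value are excluded. -/
theorem zpow_out71 {s c b b' : ℝ} (hs : 1 < s) (hc : 0 < c) :
    ∃ N : ℕ, ∀ j : ℤ, (N : ℤ) < |j| → ¬ (c * s ^ j ≤ b ∧ (c * s ^ j)⁻¹ ≤ b') := by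
  obtain ⟨N, hN⟩ := pow_unbounded_of_one_lt (max (b / c) (b' * c)) hs
  have hs0 : 0 < s := lt_trans zero_lt_one hs
  refine ⟨N, fun j hj h => ?_⟩
  have hN1 : b / c < s ^ N := lt_of_le_of_lt (le_max_left _ _) hN
  have hN2 : b' * c < s ^ N := lt_of_le_of_lt (le_max_right _ _) hN
  rcases lt_abs.1 hj with hpos | hneg
  · have h1 : s ^ (N : ℤ) ≤ s ^ j := zpow_le_zpow_right₀ hs.le hpos.le
    rw [zpow_natCast] at h1
    have h2 : b / c < s ^ j := lt_of_lt_of_le hN1 h1
    rw [div_lt_iff₀ hc] at h2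
    have := h.1
    linarith [mul_comm c (s ^ j)]
  · have h1 : s ^ (N : ℤ) ≤ s ^ (-j) := zpow_le_zpow_right₀ hs.le hneg.le
    rw [zpow_natCast, zpow_neg] at h1
    have hsj : 0 < s ^ j := zpow_pos hs0 j
    have h2 : b' * c < (s ^ j)⁻¹ := lt_of_lt_of_le hN2 h1
    have h3 : (c * s ^ j)⁻¹ = (s ^ j)⁻¹ / c := by
      rw [mul_inv, div_eq_mul_inv, mul_comm]
    have h4 : b' < (s ^ j)⁻¹ / c := by
      rw [lt_div_iff₀ hc]; exact h2
    have := h.2
    rw [h3] at this
    linarith

/-! ## 4. The leaf -/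

variable (K : Type) [Field K] [NumberField K] (K' : Type) [Field K'] [NumberField K']
  [Algebra K K']

/-- **LEAF UF.B3 = RAY-FIN-UP**, verbatim and unconditional. -/
theorem rayFinUpC71 : H340.RayFinUpC340 K K' := by
  classical
  intro D hD ι Φ hΦ δ dA hdA
  obtain ⟨_, t, ht0, ht2, htw⟩ := hD.frame'.ray
  have ht1 : 1 < t := one_lt_of_rayGen71 (K' := K') ht0 ht2
  have hb : ∀ w : InfinitePlace K', ∃ b b' : ℝ, ∀ B : GL (Fin 2) ℂ, Φ w B ≠ 0 →
      absDetHom71 B ≤ b ∧ (absDetHom71 B)⁻¹ ≤ b' :=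
    fun w => bounds_on_support71 (Φ w) (hΦ w).2
  choose b b' hbb using hb
  have key : ∀ v : InfinitePlace K, ∃ N : ℕ, ∀ j : ℤ, (N : ℤ) < |j| →
      ∀ Z : Fin D.l → GL (Fin 2) ℂ,
        cycProd340 D.l (fun a => Φ ((dA v).w a)) (delA340 D.R'.r δ (dA v) j) Z = 0 := by
    intro v
    have hl : 0 < D.l := (hdA v).pos
    have hs : (1 : ℝ) < (t ^ 2) ^ D.l := one_lt_pow₀ (one_lt_pow₀ ht1 two_ne_zero) hl.ne'
    have hc : 0 < ∏ a : Fin D.l, absDetHom71 (infGL305 ((dA v).w a) (T5.ratG δ)) :=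
      Finset.prod_pos (fun a _ => absDetHom_pos71 _)
    obtain ⟨N, hN⟩ := zpow_out71 (b := ∏ a : Fin D.l, b ((dA v).w a))
      (b' := ∏ a : Fin D.l, b' ((dA v).w a)) hs hc
    refine ⟨N, fun j hj Z => ?_⟩
    by_contra hne
    have hfac : ∀ a : Fin D.l, Φ ((dA v).w a)
        ((Z a)⁻¹ * delA340 D.R'.r δ (dA v) j a * Z (cycSucc340 a)) ≠ 0 := by
      intro a h0
      apply hne
      show (∏ a : Fin D.l, Φ ((dA v).w a)
        ((Z a)⁻¹ * delA340 D.R'.r δ (dA v) j a * Z (cycSucc340 a))) = 0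
      exact Finset.prod_eq_zero (Finset.mem_univ a) h0
    have hdel : ∀ a : Fin D.l, absDetHom71 (delA340 D.R'.r δ (dA v) j a)
        = absDetHom71 (infGL305 ((dA v).w a) (T5.ratG δ)) * (t ^ 2) ^ j := by
      intro a
      have h0 : delA340 D.R'.r δ (dA v) j a
          = Matrix.GeneralLinearGroup.map ((dA v).d a)
              (infGL305 ((dA v).w a) (T5.ratG δ * D.R'.r ^ j)) := rfl
      rw [h0, absDetHom_map71 _ ((hdA v).typ a), map_mul, map_zpow, map_mul, map_zpow,
        absDetHom_rayGen71 ht0 _ (htw _)]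
    have hprod : ∏ a : Fin D.l, absDetHom71
        ((Z a)⁻¹ * delA340 D.R'.r δ (dA v) j a * Z (cycSucc340 a))
        = (∏ a : Fin D.l, absDetHom71 (infGL305 ((dA v).w a) (T5.ratG δ)))
            * ((t ^ 2) ^ D.l) ^ j := by
      have h1 : ∀ a : Fin D.l, absDetHom71
          ((Z a)⁻¹ * delA340 D.R'.r δ (dA v) j a * Z (cycSucc340 a))
          = (absDetHom71 (Z a))⁻¹ * absDetHom71 (delA340 D.R'.r δ (dA v) j a)
              * absDetHom71 (Z (cycSucc340 a)) := by
        intro a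
        rw [map_mul, map_mul, map_inv]
      rw [Finset.prod_congr rfl (fun a _ => h1 a),
        prod_cycle71 D.l (fun a => absDetHom71 (Z a)) _ (fun a => absDetHom_pos71 _),
        Finset.prod_congr rfl (fun a _ => hdel a), Finset.prod_mul_distrib,
        Finset.prod_const, Finset.card_univ, Fintype.card_fin]
      congr 1
      rw [← zpow_natCast ((t ^ 2) ^ j) D.l, ← zpow_mul, mul_comm j (D.l : ℤ), zpow_mul,
        zpow_natCast]
    apply hN j hj
    constructor
    · rw [← hprod]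
      exact Finset.prod_le_prod (fun a _ => (absDetHom_pos71 _).le)
        (fun a _ => (hbb _ _ (hfac a)).1)
    · rw [← hprod, ← Finset.prod_inv_distrib]
      exact Finset.prod_le_prod (fun a _ => (inv_pos.2 (absDetHom_pos71 _)).le)
        (fun a _ => (hbb _ _ (hfac a)).2)
  choose N hN using key
  refine ⟨Finset.univ.biUnion fun v => Finset.Icc (-(N v : ℤ)) (N v), fun j hj v Z => ?_⟩
  apply hN v
  have hjv : j ∉ Finset.Icc (-(N v : ℤ)) (N v) := fun h =>
    hj (Finset.mem_biUnion.2 ⟨v, Finset.mem_univ _, h⟩)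
  rw [Finset.mem_Icc, not_and_or, not_le, not_le] at hjv
  rw [lt_abs]
  rcases hjv with h | h
  · right; linarith
  · left; exact h

end Fermat.Agent.LT.T7.H71
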